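import Mathlib
import Fermat.Agent.FF2.G4.AddFinite
import Fermat.Agent.FF2.G2I.Instance
import Fermat.Agent.FF2.Base.LamZVal
import Fermat.Agent.FF2.Lam.FiniteCongr

/-!
# MOONSHOT S19, node (N7) = (ADD-INST): the finite-family addition congruence at the instance

`P = padicPlace ℓ`, `S = G2I.redS p hℓp P hP` (the good reduction of `X₀(p)` at `ℓ ∤ p`),
`W = Base.LamZ ℓ ζ` (`ζ ^ m = 1`, `ℓ ∤ m`), `j = Base.lamZToP ℓ ζ`.

* `hIdeal_padicPlace` : the ideal input of `G4.xPic_add_finite` (helper23's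
  `Lam.exists_ideal_pow_le` + helper5's `Base.valuation_algebraMap_le`);
* `add_instance` : **(ADD)** in the literal of helper27's `S19_of_instance` / helper5's
  `Base.S19_of_chart`: for `U : Finset (JZero p)` in the kernel of `reductionModL` and `n`,
  polynomials `Q i` over `LamZ ℓ ζ` with
  `xJ (u + u' + c0) i − aeval (xJ u, xJ u') (Q i) = ℓ ^ n * b`, `b ∈ padicPlace ℓ`, in `ℚ̄`,
  where `c0 = G4.twoChordClass X1 X2 …`.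
-/

set_option autoImplicit false
set_option linter.style.haveILetI false
set_option linter.unusedSectionVars false

noncomputable section
namespace Fermat.Agent.FF2.G4I

open AlgebraicCurve ModularCurve IsLocalRing Fermat.Agent.Val Fermat.Agent.Red Fermat.Agent.FF2.G2
  Fermat.Agent.FF2.Disc Fermat.Agent.FF2.HChord Fermat.Agent.FF2.G4 Fermat.Agent.FF2.Base
  Fermat.Agent.FF2.G2I GaloisRep

set_option synthInstance.maxHeartbeats 400000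
set_option maxHeartbeats 1000000

local notation "Qb" => AlgebraicClosure ℚ

variable {ℓ : ℕ} [hℓ : Fact ℓ.Prime] {ζ : Qb}

/-- **The ideal input of `xPic_add_finite` at `P = padicPlace ℓ`, `W = LamZ ℓ ζ`.** -/
theorem hIdeal_padicPlace (hP : (padicPlace ℓ).LiesOverPrime ℓ) {m : ℕ} (hζ : ζ ^ m = 1)
    (hm : ¬ ℓ ∣ m) [IsLocalRing ↥(LamZ ℓ ζ)] :
    letI := algebraLamZP ℓ ζ
    ∀ s : Finset ↥(padicPlace ℓ), (∀ a ∈ s, residue ↥(padicPlace ℓ) a = 0) →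
      ∃ (J : Ideal ↥(padicPlace ℓ)) (e : ℕ),
        (∀ w ∈ maximalIdeal ↥(LamZ ℓ ζ), algebraMap ↥(LamZ ℓ ζ) ↥(padicPlace ℓ) w ∈ J) ∧
        (∀ a ∈ s, a ∈ J) ∧
        ∀ N : ℕ, J ^ (e * N) ≤ Ideal.span {(((ℓ : ℕ) : ↥(padicPlace ℓ))) ^ N} := by
  letI := algebraLamZP ℓ ζ
  intro s hs
  obtain ⟨J, e, -, -, hdiv, hsJ, -, hpow⟩ := Lam.exists_ideal_pow_le hℓ.out hP s
    (fun a ha => Lam.valuation_lt_one_of_map_eq_zero (residue ↥(padicPlace ℓ)) (hs a ha))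
  exact ⟨J, e, fun w hw => hdiv _ (valuation_algebraMap_le hζ hm w hw), hsJ, hpow⟩

variable (p : ℕ) [NeZero p] (hℓp : ¬ ℓ ∣ p) (hP : (padicPlace ℓ).LiesOverPrime ℓ)

/-- **(N7) = (ADD-INST): the finite-family addition congruence at the instance**, in `ℚ̄`. -/
theorem add_instance {m : ℕ} (hζ : ζ ^ m = 1) (hm : ¬ ℓ ∣ m) [IsLocalRing ↥(LamZ ℓ ζ)]
    {g : ℕ} {C C' : ChartData (redS p hℓp (padicPlace ℓ) hP) g}
    (X1 : GC.ChordData C' (g + g)) (X2 : GC.ChordData C g) (X : CoordData C)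
    (X' : CoordData C')
    (hg : genusFF Qb (modularFunctionFieldBar p) ≤ g)
    (hQ1 : ∀ i, X1.Qb i = Fin.append C.Pb C.Pb i) (hQ2 : ∀ j, X2.Qb j = C'.Pb j)
    {ι₁ ι₂ ν₁ ν₂ : Type*} [Fintype ι₁] [Fintype ι₂] [Fintype ν₁] [Fintype ν₂]
    [DecidableEq ν₁] [DecidableEq ν₂]
    {Y1 : Chord.ChordData ↥(LamZ ℓ ζ) ι₁ (Fin g) Empty ν₁ (Fin g)}
    {Y2 : Chord.ChordData ↥(LamZ ℓ ζ) ι₂ Empty (Fin g) ν₂ (Fin g)}
    {Z1 Z2 : Set (Place Qb (modularFunctionFieldBar p))}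
    (H1 : HonestData (redS p hℓp (padicPlace ℓ) hP) (lamZToP ℓ ζ) Y1 Z1)
    (H2 : HonestData (redS p hℓp (padicPlace ℓ) hP) (lamZToP ℓ ζ) Y2 Z2)
    (hcard₁ : Fintype.card ι₁ = Fintype.card (Fin g ⊕ Fin g ⊕ Empty ⊕ ν₁) + 1)
    (H1₁ : Function.Surjective ((Chord.cond0 Y1).map (residue ↥(LamZ ℓ ζ))).mulVecLin)
    (f0₁ : ι₁ → ↥(LamZ ℓ ζ)) (hf0u₁ : ∃ i, IsUnit (f0₁ i))
    (hf0₁ : ∀ c, (Chord.cond0 Y1).mulVec f0₁ c ∈ maximalIdeal ↥(LamZ ℓ ζ))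
    (hO0₁ : ∀ o, ∑ i, f0₁ i * PowerSeries.coeff 0 (Y1.τO o i) ∈ maximalIdeal ↥(LamZ ℓ ζ))
    (hO1₁ : ∀ o, IsUnit (∑ i, f0₁ i * PowerSeries.coeff 1 (Y1.τO o i)))
    (hcard₂ : Fintype.card ι₂ = Fintype.card (Empty ⊕ Empty ⊕ Fin g ⊕ ν₂) + 1)
    (H1₂ : Function.Surjective ((Chord.cond0 Y2).map (residue ↥(LamZ ℓ ζ))).mulVecLin)
    (f0₂ : ι₂ → ↥(LamZ ℓ ζ)) (hf0u₂ : ∃ i, IsUnit (f0₂ i))
    (hf0₂ : ∀ c, (Chord.cond0 Y2).mulVec f0₂ c ∈ maximalIdeal ↥(LamZ ℓ ζ))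
    (hO0₂ : ∀ o, ∑ i, f0₂ i * PowerSeries.coeff 0 (Y2.τO o i) ∈ maximalIdeal ↥(LamZ ℓ ζ))
    (hO1₂ : ∀ o, IsUnit (∑ i, f0₂ i * PowerSeries.coeff 1 (Y2.τO o i)))
    (hR1 : 0 ≤ X1.R)
    (hspan1 : riemannRochSpace (Finsupp.single X1.Pinf (X1.m : ℤ)) ≤
      Submodule.span Qb (Set.range H1.e))
    (hind1 : LinearIndependent (ResidueField ↥(padicPlace ℓ))
      fun i => (redS p hℓp (padicPlace ℓ) hP).resF (H1.e i))
    (hZinf1 : X1.Pinf ∈ Z1)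
    (hν1 : ∀ x, (H1.lν x : ℤ) < X1.R (H1.Cν x).P₀)
    (hCD1 : ∀ d, (redS p hℓp (padicPlace ℓ) hP).r (H1.CD d).P₀ = C.Pb d)
    (hCD1t : ∀ d, (H1.CD d).t = (X.T d).t)
    (hCO1 : ∀ o, (redS p hℓp (padicPlace ℓ) hP).r (H1.CO o).P₀ = C'.Pb o)
    (hCO1t : ∀ o, (H1.CO o).t = (X'.T o).t)
    (hR2 : 0 ≤ X2.R)
    (hspan2 : riemannRochSpace (Finsupp.single X2.Pinf (X2.m : ℤ)) ≤
      Submodule.span Qb (Set.range H2.e))
    (hind2 : LinearIndependent (ResidueField ↥(padicPlace ℓ))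
      fun i => (redS p hℓp (padicPlace ℓ) hP).resF (H2.e i))
    (hZinf2 : X2.Pinf ∈ Z2)
    (hν2 : ∀ x, (H2.lν x : ℤ) < X2.R (H2.Cν x).P₀)
    (hCS2 : ∀ o, (redS p hℓp (padicPlace ℓ) hP).r (H2.CS o).P₀ = C'.Pb o)
    (hCS2t : ∀ o, (H2.CS o).t = (X'.T o).t)
    (hCO2 : ∀ o, (redS p hℓp (padicPlace ℓ) hP).r (H2.CO o).P₀ = C.Pb o)
    (hCO2t : ∀ o, (H2.CO o).t = (X.T o).t)
    (U : Finset (JZero p)) (hU : ∀ u ∈ U, reductionModL (padicPlace ℓ) p u = 0) (n : ℕ) :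
    ∃ Q : Fin g → MvPolynomial (Fin g ⊕ Fin g) ↥(LamZ ℓ ζ), ∀ u ∈ U, ∀ u' ∈ U, ∀ i : Fin g,
      ∃ b ∈ padicPlace ℓ,
        (((xJ p hℓp (padicPlace ℓ) hP X hg (u + u' + twoChordClass X1 X2
            (residue_surjective' (padicPlace ℓ)) (riemannPkg_bar p)
            (riemannPkg_modL_residueField p hℓp (padicPlace ℓ) hP) hg hQ1 hQ2) i :
            {c : ↥(padicPlace ℓ) // residue ↥(padicPlace ℓ) c = 0}) : ↥(padicPlace ℓ)) : Qb) -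
          MvPolynomial.aeval (Sum.elim
            (fun d => (((xJ p hℓp (padicPlace ℓ) hP X hg u d :
              {c : ↥(padicPlace ℓ) // residue ↥(padicPlace ℓ) c = 0}) : ↥(padicPlace ℓ)) : Qb))
            (fun d => (((xJ p hℓp (padicPlace ℓ) hP X hg u' d :
              {c : ↥(padicPlace ℓ) // residue ↥(padicPlace ℓ) c = 0}) : ↥(padicPlace ℓ)) : Qb)))
            (Q i) = ((ℓ : ℕ) : Qb) ^ n * b := by
  letI := algebraLamZP ℓ ζ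
  haveI : IsScalarTower ↥(LamZ ℓ ζ) ↥(padicPlace ℓ) Qb := isScalarTower_LamZ_P
  have hj : ∀ w : ↥(LamZ ℓ ζ), algebraMap ↥(LamZ ℓ ζ) ↥(padicPlace ℓ) w = lamZToP ℓ ζ w :=
    fun _ => rfl
  have hU' : ∀ u ∈ U, u ∈ kerRedPic (redS p hℓp (padicPlace ℓ) hP) := by
    intro u hu
    rw [← ker_reductionModL p hℓp (padicPlace ℓ) hP]
    exact hU u hu
  obtain ⟨Q, hQ⟩ := xPic_add_finite X1 X2 X (residue_surjective' (padicPlace ℓ))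
    (riemannPkg_bar p) (riemannPkg_modL_residueField p hℓp (padicPlace ℓ) hP) hg hQ1 hQ2 hj
    H1 H2 X' hcard₁ H1₁ f0₁ hf0u₁ hf0₁ hO0₁ hO1₁ hcard₂ H1₂ f0₂ hf0u₂ hf0₂ hO0₂ hO1₂
    hR1 hspan1 hind1 hZinf1 hν1 hCD1 hCD1t hCO1 hCO1t
    hR2 hspan2 hind2 hZinf2 hν2 hCS2 hCS2t hCO2 hCO2t
    (((ℓ : ℕ) : ↥(padicPlace ℓ))) (hIdeal_padicPlace hP hζ hm) U hU' n
  refine ⟨Q, fun u hu u' hu' i => ?_⟩
  obtain ⟨b, hb⟩ := hQ u hu u' hu' i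
  refine ⟨(b : Qb), b.2, ?_⟩
  have h1 := congrArg (fun x : ↥(padicPlace ℓ) => (x : Qb)) hb
  beta_reduce at h1
  rw [show ∀ x y : ↥(padicPlace ℓ), ((x - y : ↥(padicPlace ℓ)) : Qb) = (x : Qb) - (y : Qb) from
    fun _ _ => rfl] at h1
  have h2 : ∀ (f : Fin g ⊕ Fin g → ↥(padicPlace ℓ)) (q : MvPolynomial (Fin g ⊕ Fin g) ↥(LamZ ℓ ζ)),
      ((MvPolynomial.aeval f q : ↥(padicPlace ℓ)) : Qb) =
        MvPolynomial.aeval (fun v => ((f v : ↥(padicPlace ℓ)) : Qb)) q := by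
    intro f q
    exact (MvPolynomial.aeval_algebraMap_apply Qb f q).symm
  rw [h2] at h1
  have h3 : (fun v => (((Sum.elim
      (fun d => ((X.xPic (riemannPkg_bar p)
        (riemannPkg_modL_residueField p hℓp (padicPlace ℓ) hP) hg u d :
          {c : ↥(padicPlace ℓ) // residue ↥(padicPlace ℓ) c = 0}) : ↥(padicPlace ℓ)))
      (fun d => ((X.xPic (riemannPkg_bar p)
        (riemannPkg_modL_residueField p hℓp (padicPlace ℓ) hP) hg u' d :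
          {c : ↥(padicPlace ℓ) // residue ↥(padicPlace ℓ) c = 0}) : ↥(padicPlace ℓ)))) v :
        ↥(padicPlace ℓ)) : Qb)) =
      Sum.elim
        (fun d => (((xJ p hℓp (padicPlace ℓ) hP X hg u d :
          {c : ↥(padicPlace ℓ) // residue ↥(padicPlace ℓ) c = 0}) : ↥(padicPlace ℓ)) : Qb))
        (fun d => (((xJ p hℓp (padicPlace ℓ) hP X hg u' d :
          {c : ↥(padicPlace ℓ) // residue ↥(padicPlace ℓ) c = 0}) : ↥(padicPlace ℓ)) : Qb)) := by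
    funext v
    rcases v with d | d <;> rfl
  rw [h3] at h1
  rw [show ((((ℓ : ℕ) : ↥(padicPlace ℓ)) ^ n * b : ↥(padicPlace ℓ)) : Qb) =
    ((ℓ : ℕ) : Qb) ^ n * (b : Qb) from by push_cast; rfl] at h1
  exact h1

end Fermat.Agent.FF2.G4I
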