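import Mathlib
import Fermat.Agent.FF2.G4I.AddInst
import Fermat.Agent.FF2.G4.AddFiniteOf
import Fermat.Agent.FF2.SFfin.AddOne

/-!
# MOONSHOT S19, node (N7a): (ADD) at the instance from ONE `GeoData` (producers' shapes)

`P = padicPlace ℓ`, `S = G2I.redS p hℓp P hP`, `W = Base.LamZ ℓ ζ`, `j = Base.lamZToP ℓ ζ`.

* `add_instance_of` : (ADD) (helper27's / helper19's `AddCong` literal, values in `ℚ̄`) from the
  bare conclusion `G4.AddCongrConcl` of the addition congruence;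
* `reductionModL_twoChordClass` : `reductionModL P p c0 = 0` for `c0 = G4.twoChordClass X1 X2 …`;
* `add_instance_geo` : (ADD) from ONE `G : SF.GeoData S (lamZToP ℓ ζ) Z ι` whose `G.e` is a reduced
  basis of `L(m·∞)`, the two chords `X1`, `X2` at the same `∞`, `m`, helper15's special-fibre
  packages `ChordOneJets`/`ChordTwoJets` (through helper2's `SFfin.x_add_congruence_one`).
-/

set_option autoImplicit false
set_option linter.style.haveILetI false
set_option linter.unusedSectionVars false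

noncomputable section
namespace Fermat.Agent.FF2.G4I

open AlgebraicCurve ModularCurve IsLocalRing Fermat.Agent.Val Fermat.Agent.Red Fermat.Agent.FF2.G2
  Fermat.Agent.FF2.Disc Fermat.Agent.FF2.HChord Fermat.Agent.FF2.G4 Fermat.Agent.FF2.Base
  Fermat.Agent.FF2.G2I GaloisRep Fermat.Agent.FF2.SF Fermat.Agent.FF2.NS

set_option synthInstance.maxHeartbeats 400000
set_option maxHeartbeats 1000000

local notation "Qb" => AlgebraicClosure ℚ

variable {ℓ : ℕ} [hℓ : Fact ℓ.Prime] {ζ : Qb}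
  (p : ℕ) [NeZero p] (hℓp : ¬ ℓ ∣ p) (hP : (padicPlace ℓ).LiesOverPrime ℓ)

/-- **(ADD) at the instance from the bare addition congruence.** -/
theorem add_instance_of {m : ℕ} (hζ : ζ ^ m = 1) (hm : ¬ ℓ ∣ m) [IsLocalRing ↥(LamZ ℓ ζ)]
    {g : ℕ} {C C' : ChartData (redS p hℓp (padicPlace ℓ) hP) g}
    (X1 : GC.ChordData C' (g + g)) (X2 : GC.ChordData C g) (X : CoordData C)
    (X' : CoordData C')
    (hg : genusFF Qb (modularFunctionFieldBar p) ≤ g)
    (hQ1 : ∀ i, X1.Qb i = Fin.append C.Pb C.Pb i) (hQ2 : ∀ j, X2.Qb j = C'.Pb j)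
    (hX : letI := algebraLamZP ℓ ζ
      AddCongrConcl X1 X2 X X' (riemannPkg_bar p)
        (riemannPkg_modL_residueField p hℓp (padicPlace ℓ) hP) hg ↥(LamZ ℓ ζ))
    (U : Finset (JZero p)) (hU : ∀ u ∈ U, reductionModL (padicPlace ℓ) p u = 0) (n : ℕ) :
    ∃ Q : Fin g → MvPolynomial (Fin g ⊕ Fin g) ↥(LamZ ℓ ζ), ∀ u ∈ U, ∀ u' ∈ U, ∀ i : Fin g,
      ∃ b ∈ padicPlace ℓ,
        (((xJ p hℓp (padicPlace ℓ) hP X hg (u + u' + twoChordClass X1 X2
            (residue_surjective' (padicPlace ℓ)) (riemannPkg_bar p)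
            (riemannPkg_modL_residueField p hℓp (padicPlace ℓ) hP) hg hQ1 hQ2) i :
            {c : ↥(padicPlace ℓ) // residue ↥(padicPlace ℓ) c = 0}) : ↥(padicPlace ℓ)) : Qb) -
          MvPolynomial.aeval (Sum.elim
            (fun d => (((xJ p hℓp (padicPlace ℓ) hP X hg u d :
              {c : ↥(padicPlace ℓ) // residue ↥(padicPlace ℓ) c = 0}) : ↥(padicPlace ℓ)) : Qb))
            (fun d => (((xJ p hℓp (padicPlace ℓ) hP X hg u' d :
              {c : ↥(padicPlace ℓ) // residue ↥(padicPlace ℓ) c = 0}) : ↥(padicPlace ℓ)) : Qb)))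
            (Q i) = ((ℓ : ℕ) : Qb) ^ n * b := by
  letI := algebraLamZP ℓ ζ
  haveI : IsScalarTower ↥(LamZ ℓ ζ) ↥(padicPlace ℓ) Qb := isScalarTower_LamZ_P
  have hU' : ∀ u ∈ U, u ∈ kerRedPic (redS p hℓp (padicPlace ℓ) hP) := by
    intro u hu
    rw [← ker_reductionModL p hℓp (padicPlace ℓ) hP]
    exact hU u hu
  obtain ⟨Q, hQ⟩ := xPic_add_finite_of X1 X2 X X' (residue_surjective' (padicPlace ℓ))
    (riemannPkg_bar p) (riemannPkg_modL_residueField p hℓp (padicPlace ℓ) hP) hg hQ1 hQ2 hX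
    (((ℓ : ℕ) : ↥(padicPlace ℓ))) (hIdeal_padicPlace hP hζ hm) U hU' n
  refine ⟨Q, fun u hu u' hu' i => ?_⟩
  obtain ⟨b, hb⟩ := hQ u hu u' hu' i
  refine ⟨(b : Qb), b.2, ?_⟩
  have h1 := congrArg (fun x : ↥(padicPlace ℓ) => (x : Qb)) hb
  beta_reduce at h1
  rw [show ∀ x y : ↥(padicPlace ℓ), ((x - y : ↥(padicPlace ℓ)) : Qb) = (x : Qb) - (y : Qb) from
    fun _ _ => rfl] at h1
  have h2 : ∀ (f : Fin g ⊕ Fin g → ↥(padicPlace ℓ)) (q : MvPolynomial (Fin g ⊕ Fin g) ↥(LamZ ℓ ζ)),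
      ((MvPolynomial.aeval f q : ↥(padicPlace ℓ)) : Qb) =
        MvPolynomial.aeval (fun v => ((f v : ↥(padicPlace ℓ)) : Qb)) q := by
    intro f q
    exact (MvPolynomial.aeval_algebraMap_apply Qb f q).symm
  rw [h2] at h1
  have h3 : (fun v => (((Sum.elim
      (fun d => ((X.xPic (riemannPkg_bar p)
        (riemannPkg_modL_residueField p hℓp (padicPlace ℓ) hP) hg u d :
          {c : ↥(padicPlace ℓ) // residue ↥(padicPlace ℓ) c = 0}) : ↥(padicPlace ℓ)))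
      (fun d => ((X.xPic (riemannPkg_bar p)
        (riemannPkg_modL_residueField p hℓp (padicPlace ℓ) hP) hg u' d :
          {c : ↥(padicPlace ℓ) // residue ↥(padicPlace ℓ) c = 0}) : ↥(padicPlace ℓ)))) v :
        ↥(padicPlace ℓ)) : Qb)) =
      Sum.elim
        (fun d => (((xJ p hℓp (padicPlace ℓ) hP X hg u d :
          {c : ↥(padicPlace ℓ) // residue ↥(padicPlace ℓ) c = 0}) : ↥(padicPlace ℓ)) : Qb))
        (fun d => (((xJ p hℓp (padicPlace ℓ) hP X hg u' d :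
          {c : ↥(padicPlace ℓ) // residue ↥(padicPlace ℓ) c = 0}) : ↥(padicPlace ℓ)) : Qb)) := by
    funext v
    rcases v with d | d <;> rfl
  rw [h3] at h1
  rw [show ((((ℓ : ℕ) : ↥(padicPlace ℓ)) ^ n * b : ↥(padicPlace ℓ)) : Qb) =
    ((ℓ : ℕ) : Qb) ^ n * (b : Qb) from by push_cast; rfl] at h1
  exact h1

/-- The constant of (ADD) lies in the kernel of reduction. -/
theorem reductionModL_twoChordClass
    {g : ℕ} {C C' : ChartData (redS p hℓp (padicPlace ℓ) hP) g}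
    (X1 : GC.ChordData C' (g + g)) (X2 : GC.ChordData C g)
    (hg : genusFF Qb (modularFunctionFieldBar p) ≤ g)
    (hQ1 : ∀ i, X1.Qb i = Fin.append C.Pb C.Pb i) (hQ2 : ∀ j, X2.Qb j = C'.Pb j) :
    reductionModL (padicPlace ℓ) p (twoChordClass X1 X2
      (residue_surjective' (padicPlace ℓ)) (riemannPkg_bar p)
      (riemannPkg_modL_residueField p hℓp (padicPlace ℓ) hP) hg hQ1 hQ2) = 0 := by
  have h := twoChordClass_mem_kerRedPic X1 X2 (residue_surjective' (padicPlace ℓ))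
    (riemannPkg_bar p) (riemannPkg_modL_residueField p hℓp (padicPlace ℓ) hP) hg hQ1 hQ2
  rw [← ker_reductionModL p hℓp (padicPlace ℓ) hP] at h
  exact h

/-- **(N7a): (ADD) at the instance from ONE `GeoData`.**  Inputs in the producers' shapes: the two
chords `X1`, `X2` (helper15's `exists_chordData_one/two`: same `∞`, same `m`), the special-fibre
packages `hJ1`, `hJ2`, ONE `G : SF.GeoData` (helper18's (GEO-INST): `G.e` a reduced basis of
`L(m∞)`, disc coordinates `G.Cof` at the residue centres), coordinates `X`, `X'` with the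
parameters of `G.Cof` (helper14's `CoordData.ofCof`: `hT`, `hT'` by `rfl`). -/
theorem add_instance_geo {m : ℕ} (hζ : ζ ^ m = 1) (hm : ¬ ℓ ∣ m) [IsLocalRing ↥(LamZ ℓ ζ)]
    {g : ℕ} {C C' : ChartData (redS p hℓp (padicPlace ℓ) hP) g}
    (X1 : GC.ChordData C' (g + g)) (X2 : GC.ChordData C g) (X : CoordData C)
    (X' : CoordData C')
    (hg : genusFF Qb (modularFunctionFieldBar p) ≤ g)
    (hQ1 : ∀ i, X1.Qb i = Fin.append C.Pb C.Pb i) (hQ2 : ∀ j, X2.Qb j = C'.Pb j)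
    {ι : Type*} [Fintype ι] {Z : Set (Place Qb (modularFunctionFieldBar p))}
    (G : GeoData (redS p hℓp (padicPlace ℓ) hP) (lamZToP ℓ ζ) Z ι)
    (hP2 : X2.Pinf = X1.Pinf) (hm2 : X2.m = X1.m)
    {Rb1 Rb2 : Divisor (ResidueField ↥(padicPlace ℓ))
      (modularFunctionFieldFullC (ResidueField ↥(padicPlace ℓ)) p)}
    (hJ1 : ChordOneJets ((redS p hℓp (padicPlace ℓ) hP).r X1.Pinf) X1.m C.Pb C'.Pb X1.f0b Rb1)
    (hJ2 : ChordTwoJets ((redS p hℓp (padicPlace ℓ) hP).r X1.Pinf) X1.m C.Pb C'.Pb X2.f0b Rb2)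
    (hPb : ∀ d, C.Pb d ∈ G.rel) (hPb' : ∀ o, C'.Pb o ∈ G.rel)
    (hRb1 : ∀ Q : {Q // Q ∈ Rb1.support}, Q.1 ∈ G.rel)
    (hRb2 : ∀ Q : {Q // Q ∈ Rb2.support}, Q.1 ∈ G.rel)
    (heO : ∀ i, G.e i ∈ (redS p hℓp (padicPlace ℓ) hP).O)
    (hind : LinearIndependent (ResidueField ↥(padicPlace ℓ))
      fun i => (redS p hℓp (padicPlace ℓ) hP).resF (G.e i))
    (hspan : Submodule.span Qb (Set.range G.e)
      = riemannRochSpace (Finsupp.single X1.Pinf (X1.m : ℤ)))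
    (hZinf : X1.Pinf ∈ Z)
    (hR1 : 0 ≤ X1.R) (hν1 : ∀ x : JetIdx Rb1, ((x.2 : ℕ) : ℤ) < X1.R (G.Cof x.1.1).P₀)
    (hR2 : 0 ≤ X2.R) (hν2 : ∀ x : JetIdx Rb2, ((x.2 : ℕ) : ℤ) < X2.R (G.Cof x.1.1).P₀)
    (hT : ∀ d, (G.Cof (C.Pb d)).t = (X.T d).t) (hT' : ∀ o, (G.Cof (C'.Pb o)).t = (X'.T o).t)
    (U : Finset (JZero p)) (hU : ∀ u ∈ U, reductionModL (padicPlace ℓ) p u = 0) (n : ℕ) :
    ∃ Q : Fin g → MvPolynomial (Fin g ⊕ Fin g) ↥(LamZ ℓ ζ), ∀ u ∈ U, ∀ u' ∈ U, ∀ i : Fin g,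
      ∃ b ∈ padicPlace ℓ,
        (((xJ p hℓp (padicPlace ℓ) hP X hg (u + u' + twoChordClass X1 X2
            (residue_surjective' (padicPlace ℓ)) (riemannPkg_bar p)
            (riemannPkg_modL_residueField p hℓp (padicPlace ℓ) hP) hg hQ1 hQ2) i :
            {c : ↥(padicPlace ℓ) // residue ↥(padicPlace ℓ) c = 0}) : ↥(padicPlace ℓ)) : Qb) -
          MvPolynomial.aeval (Sum.elim
            (fun d => (((xJ p hℓp (padicPlace ℓ) hP X hg u d :
              {c : ↥(padicPlace ℓ) // residue ↥(padicPlace ℓ) c = 0}) : ↥(padicPlace ℓ)) : Qb))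
            (fun d => (((xJ p hℓp (padicPlace ℓ) hP X hg u' d :
              {c : ↥(padicPlace ℓ) // residue ↥(padicPlace ℓ) c = 0}) : ↥(padicPlace ℓ)) : Qb)))
            (Q i) = ((ℓ : ℕ) : Qb) ^ n * b := by
  refine add_instance_of p hℓp hP hζ hm X1 X2 X X' hg hQ1 hQ2 ?_ U hU n
  letI := algebraLamZP ℓ ζ
  intro N
  refine SFfin.x_add_congruence_one X1 X2 X X' (residue_surjective' (padicPlace ℓ))
    (riemannPkg_bar p) (riemannPkg_modL_residueField p hℓp (padicPlace ℓ) hP) hg hQ1 hQ2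
    (j := lamZToP ℓ ζ) (fun _ => rfl) ?_ G hP2 hm2 hJ1 hJ2 hPb hPb' hRb1 hRb2 heO hind hspan
    hZinf hR1 hν1 hR2 hν2 hT hT' N
  intro w hw
  exact (residue_eq_zero_iff _).2 (lamZToP_mem_maximalIdeal hw)

end Fermat.Agent.FF2.G4I
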