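import Mathlib
import Fermat.Agent.FF2.G4I.AddInstOf
import Fermat.Agent.FF2.G2.CoordOfCof
import Fermat.Agent.FF2.SF.HonestLemmas

/-!
# MOONSHOT S19, node (T-GEO), half 1: `add_instance_cof` = (ADD) HARD-WIRED to ONE `GeoData`

`P = padicPlace ℓ`, `S = G2I.redS p hℓp P hP`, `W = Base.LamZ ℓ ζ`.  Inputs in the producers'
clause shapes:

* helper14's `G2I.exists_chord_choices` : `lift` (a section of `S.r`), charts `C`, `C'` with
  `P0 = lift ∘ Pb`, chords `X1`, `X2` at the same `∞ = Pinf` and the same `m`, with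
  `X_i.R = mapDomain lift Rb_i`, `0 ≤ X_i.R`, `ChordOneJets`/`ChordTwoJets`;
* helper20's `RatD.exists_geoData_of_good_section` : `G : SF.GeoData S (lamZToP ℓ ζ) Z ι` with
  `G.rel = ↑s`, `(G.Cof Q).P₀ = lift Q` on `s`, `G.e` a reduced basis of `L(m·Pinf)`;
* the memberships of `C.Pb`, `C'.Pb`, `supp Rb_i` in `s`.

Output: (ADD) (= helper19's `Main.AddCong` unfolded) for `X := CoordData.ofCof C G.Cof hC`,
`c0 := G4.twoChordClass X1 X2 …`.
-/

set_option autoImplicit false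
set_option linter.style.haveILetI false
set_option linter.unusedSectionVars false

noncomputable section
namespace Fermat.Agent.FF2.G4I

open AlgebraicCurve ModularCurve IsLocalRing Fermat.Agent.Val Fermat.Agent.Red Fermat.Agent.FF2.G2
  Fermat.Agent.FF2.Disc Fermat.Agent.FF2.HChord Fermat.Agent.FF2.G4 Fermat.Agent.FF2.Base
  Fermat.Agent.FF2.G2I GaloisRep Fermat.Agent.FF2.SF Fermat.Agent.FF2.NS

set_option synthInstance.maxHeartbeats 400000
set_option maxHeartbeats 1000000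

local notation "Qb" => AlgebraicClosure ℚ

variable {ℓ : ℕ} [hℓ : Fact ℓ.Prime] {ζ : Qb}
  (p : ℕ) [NeZero p] (hℓp : ¬ ℓ ∣ p) (hP : (padicPlace ℓ).LiesOverPrime ℓ)

/-- **(T-GEO), half 1: (ADD) hard-wired to ONE `GeoData`.** -/
theorem add_instance_cof {m : ℕ} (hζ : ζ ^ m = 1) (hm : ¬ ℓ ∣ m) [IsLocalRing ↥(LamZ ℓ ζ)]
    {g : ℕ} {C C' : ChartData (redS p hℓp (padicPlace ℓ) hP) g}
    (hg : genusFF Qb (modularFunctionFieldBar p) ≤ g)
    -- the section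
    (lift : Place (ResidueField ↥(padicPlace ℓ))
        (modularFunctionFieldFullC (ResidueField ↥(padicPlace ℓ)) p) →
      Place Qb (modularFunctionFieldBar p))
    (hlift : ∀ Q, (redS p hℓp (padicPlace ℓ) hP).r (lift Q) = Q)
    -- the two chords (helper14's Choices clauses)
    (Pinf : Place Qb (modularFunctionFieldBar p)) (mm : ℕ)
    (X1 : GC.ChordData C' (g + g))
    (Rb1 : Divisor (ResidueField ↥(padicPlace ℓ))
      (modularFunctionFieldFullC (ResidueField ↥(padicPlace ℓ)) p))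
    (h1P : X1.Pinf = Pinf) (h1m : X1.m = mm)
    (hQ1 : ∀ i, X1.Qb i = Fin.append C.Pb C.Pb i)
    (h1R : X1.R = Finsupp.mapDomain lift Rb1) (h1nn : 0 ≤ X1.R)
    (hJ1 : ChordOneJets ((redS p hℓp (padicPlace ℓ) hP).r Pinf) mm C.Pb C'.Pb X1.f0b Rb1)
    (X2 : GC.ChordData C g)
    (Rb2 : Divisor (ResidueField ↥(padicPlace ℓ))
      (modularFunctionFieldFullC (ResidueField ↥(padicPlace ℓ)) p))
    (h2P : X2.Pinf = Pinf) (h2m : X2.m = mm)
    (hQ2 : ∀ j, X2.Qb j = C'.Pb j)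
    (h2R : X2.R = Finsupp.mapDomain lift Rb2) (h2nn : 0 ≤ X2.R)
    (hJ2 : ChordTwoJets ((redS p hℓp (padicPlace ℓ) hP).r Pinf) mm C.Pb C'.Pb X2.f0b Rb2)
    -- the ONE GeoData (helper20's export clauses)
    {ι : Type*} [Fintype ι] {Z : Set (Place Qb (modularFunctionFieldBar p))}
    (G : GeoData (redS p hℓp (padicPlace ℓ) hP) (lamZToP ℓ ζ) Z ι)
    (s : Finset (Place (ResidueField ↥(padicPlace ℓ))
      (modularFunctionFieldFullC (ResidueField ↥(padicPlace ℓ)) p)))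
    (hrel : G.rel = ↑s) (hCofP0 : ∀ Q ∈ s, (G.Cof Q).P₀ = lift Q)
    (heO : ∀ i, G.e i ∈ (redS p hℓp (padicPlace ℓ) hP).O)
    (hind : LinearIndependent (ResidueField ↥(padicPlace ℓ))
      fun i => (redS p hℓp (padicPlace ℓ) hP).resF (G.e i))
    (hspan : Submodule.span Qb (Set.range G.e)
      = riemannRochSpace (Finsupp.single Pinf (mm : ℤ)))
    (hZinf : Pinf ∈ Z)
    -- memberships in `s`
    (hsPb : ∀ d, C.Pb d ∈ s) (hsPb' : ∀ o, C'.Pb o ∈ s)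
    (hsR1 : ∀ Q ∈ Rb1.support, Q ∈ s) (hsR2 : ∀ Q ∈ Rb2.support, Q ∈ s)
    -- the coordinates of the two charts from `G.Cof`
    (hC : ∀ j, (G.Cof (C.Pb j)).P₀ = C.P0 j) (hC' : ∀ j, (G.Cof (C'.Pb j)).P₀ = C'.P0 j)
    (U : Finset (JZero p)) (hU : ∀ u ∈ U, reductionModL (padicPlace ℓ) p u = 0) (n : ℕ) :
    ∃ Q : Fin g → MvPolynomial (Fin g ⊕ Fin g) ↥(LamZ ℓ ζ), ∀ u ∈ U, ∀ u' ∈ U, ∀ i : Fin g,
      ∃ b ∈ padicPlace ℓ,
        (((xJ p hℓp (padicPlace ℓ) hP (CoordData.ofCof C G.Cof hC) hg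
            (u + u' + twoChordClass X1 X2
              (residue_surjective' (padicPlace ℓ)) (riemannPkg_bar p)
              (riemannPkg_modL_residueField p hℓp (padicPlace ℓ) hP) hg hQ1 hQ2) i :
            {c : ↥(padicPlace ℓ) // residue ↥(padicPlace ℓ) c = 0}) : ↥(padicPlace ℓ)) : Qb) -
          MvPolynomial.aeval (Sum.elim
            (fun d => (((xJ p hℓp (padicPlace ℓ) hP (CoordData.ofCof C G.Cof hC) hg u d :
              {c : ↥(padicPlace ℓ) // residue ↥(padicPlace ℓ) c = 0}) : ↥(padicPlace ℓ)) : Qb))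
            (fun d => (((xJ p hℓp (padicPlace ℓ) hP (CoordData.ofCof C G.Cof hC) hg u' d :
              {c : ↥(padicPlace ℓ) // residue ↥(padicPlace ℓ) c = 0}) : ↥(padicPlace ℓ)) : Qb)))
            (Q i) = ((ℓ : ℕ) : Qb) ^ n * b := by
  have hrel' : ∀ Q, Q ∈ s → Q ∈ G.rel := fun Q hQ => by rw [hrel]; exact hQ
  have hP₀ : ∀ Q ∈ G.rel, (G.Cof Q).P₀ = lift Q := fun Q hQ => hCofP0 Q (by
    rw [hrel] at hQ
    exact hQ)
  have hRb1 : ∀ Q : {Q // Q ∈ Rb1.support}, Q.1 ∈ G.rel := fun Q => hrel' _ (hsR1 _ Q.2)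
  have hRb2 : ∀ Q : {Q // Q ∈ Rb2.support}, Q.1 ∈ G.rel := fun Q => hrel' _ (hsR2 _ Q.2)
  have hν1 : ∀ x : JetIdx Rb1, ((x.2 : ℕ) : ℤ) < X1.R (G.Cof x.1.1).P₀ := by
    intro x
    rw [h1R, hP₀ _ (hRb1 x.1), mapDomain_lift_apply_lift lift hlift]
    exact Int.lt_toNat.mp x.2.2
  have hν2 : ∀ x : JetIdx Rb2, ((x.2 : ℕ) : ℤ) < X2.R (G.Cof x.1.1).P₀ := by
    intro x
    rw [h2R, hP₀ _ (hRb2 x.1), mapDomain_lift_apply_lift lift hlift]
    exact Int.lt_toNat.mp x.2.2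
  subst h1P
  subst h1m
  exact add_instance_geo p hℓp hP hζ hm X1 X2 (CoordData.ofCof C G.Cof hC)
    (CoordData.ofCof C' G.Cof hC') hg hQ1 hQ2 G h2P h2m hJ1 hJ2
    (fun d => hrel' _ (hsPb d)) (fun o => hrel' _ (hsPb' o)) hRb1 hRb2 heO hind hspan hZinf
    h1nn hν1 h2nn hν2 (fun _ => rfl) (fun _ => rfl) U hU n

end Fermat.Agent.FF2.G4I
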