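import Mathlib
import Fermat.Agent.FF2.G4I.AddCof
import Fermat.Agent.FF2.G2I.GeoContract

/-!
# PROGRAM H (S19), node (T-GEO), half 1 CLOSED: `addGeoStatement : G2I.AddGeoStatement p ℓ hℓp`

helper14's typed contract `G2I.AddGeoStatement` (FF2/G2I/GeoContract.lean @10e52411) is
`G4I.add_instance_cof` applied to the producers' clauses: the chords' 8-clause conjunctions are
destructured, `pinf p ∈ placesOverInfty` is helper24's `Rat24.pinf_mem_placesOverInfty`, and the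
second chart's `hC'` comes from `hGP0` + `hC'P0`.
-/

set_option autoImplicit false
set_option linter.style.haveILetI false
set_option linter.unusedSectionVars false

noncomputable section
namespace Fermat.Agent.FF2.G4I

open AlgebraicCurve ModularCurve IsLocalRing Fermat.Agent.Val Fermat.Agent.Red Fermat.Agent.FF2.G2
  Fermat.Agent.FF2.Disc Fermat.Agent.FF2.HChord Fermat.Agent.FF2.G4 Fermat.Agent.FF2.Base
  Fermat.Agent.FF2.G2I GaloisRep Fermat.Agent.FF2.SF Fermat.Agent.FF2.NS Fermat.Agent.FF2.Main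
  Fermat.Agent.FF2.Rat24 Fermat.Agent.S55

set_option synthInstance.maxHeartbeats 400000
set_option maxHeartbeats 1000000

local notation "Qb" => AlgebraicClosure ℚ

variable (p : ℕ) [NeZero p] (ℓ : ℕ) [hℓ : Fact ℓ.Prime] (hℓp : ¬ ℓ ∣ p)

/-- **(T-GEO), half 1 = N7a, CLOSED**: helper14's typed contract `G2I.AddGeoStatement`. -/
theorem addGeoStatement : AddGeoStatement p ℓ hℓp := by
  intro Bad lift hlift C C' _hCBad _hCP0 _hC'Bad hC'P0 _hdisj _hinf _hinf' m X1 Rb1 X2 Rb2 h1 h2 s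
    hsC hsC' hs1 hs2 _hsBad m' ζ hm' hζ G hGrel hGP0 _hGL hGO hGres _hGind hGspan hC hQ1 hQ2
  obtain ⟨h1P, h1m, -, h1R, -, h1nn, -, hJ1⟩ := h1
  obtain ⟨h2P, h2m, -, h2R, -, h2nn, -, hJ2⟩ := h2
  intro U hU n
  exact add_instance_cof p hℓp (padicPlace_liesOverPrime ℓ) hζ hm' (genusFF_bar_le_gSp p ℓ hℓp)
    lift hlift (pinf p) m X1 Rb1 h1P h1m hQ1 h1R h1nn hJ1 X2 Rb2 h2P h2m hQ2 h2R h2nn hJ2 G s
    hGrel hGP0 hGO hGres hGspan (pinf_mem_placesOverInfty p) hsC hsC' hs1 hs2 hC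
    (fun j => by rw [hGP0 _ (hsC' j), hC'P0]) U hU n

end Fermat.Agent.FF2.G4I
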